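import Mathlib
import Fermat.Prelude.Def_FLTPrelim_FreyPackage
import Fermat.Prelude.Def_FLTPrelim_Modularity

/-!
# Shared library: the integral model of the Frey curve (owner: helper4)

For `P : FreyPackage`, with `A = a ^ p`, `B = b ^ p`, `C = c ^ p` (`A + B = C`):

* `freyCurveInt_four_mul_a₂ : 4 * P.freyCurveInt.a₂ = B - 1 - A` (the division by 4 is exact)
* `freyCurveInt_sixteen_mul_a₄ : 16 * P.freyCurveInt.a₄ = -A * B` (the division by 16 is exact)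
* `freyCurveInt_b₂ / b₄ / b₆ / b₈ / c₄ / Δ` : the invariants of the integral model
* `freyCurveInt_Δ_ne_zero`, `freyCurveInt_isSemistableModel`
* `freyCurveInt_map : P.freyCurveInt.map (Int.castRingHom ℚ) = P.freyCurve`
* `freyCurveInt_isIntegralModelOf : P.freyCurveInt.IsIntegralModelOf P.freyCurve`
* `freyCurve_Δ`, `freyCurve_c₄` : the invariants of `P.freyCurve` over `ℚ`
* `prime_dvd_abc_of_dvd_freyCurveInt_Δ` : bad primes divide `a * b * c`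
* `frey_isModular_of_semistable` : modularity of semistable curves (statement S60) gives S04.
-/

set_option autoImplicit false
open WeierstrassCurve

namespace Fermat.Agent.Lib

/-- `a ^ p ≡ -1 (mod 4)`, in the form `4 ∣ a ^ p + 1`. -/
theorem frey_four_dvd_a_pow_add_one (P : FreyPackage) : (4 : ℤ) ∣ P.a ^ P.p + 1 := by
  have h4 : ((P.a ^ P.p + 1 : ℤ) : ZMod 4) = 0 := by
    push_cast
    rw [P.ha4]
    obtain ⟨k, hk⟩ := P.hp_odd
    rw [hk, pow_succ, pow_mul]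
    have h9 : (3 : ZMod 4) ^ 2 = 1 := by decide
    rw [h9, one_pow, one_mul]
    decide
  exact (ZMod.intCast_zmod_eq_zero_iff_dvd _ 4).1 h4

/-- `2 ∣ b`. -/
theorem frey_two_dvd_b (P : FreyPackage) : (2 : ℤ) ∣ P.b :=
  (ZMod.intCast_zmod_eq_zero_iff_dvd P.b 2).1 P.hb2

/-- `32 ∣ b ^ p` (as `p ≥ 5`). -/
theorem frey_thirtytwo_dvd_b_pow (P : FreyPackage) : (32 : ℤ) ∣ P.b ^ P.p := by
  have h32 : (2 : ℤ) ^ 5 ∣ P.b ^ 5 := pow_dvd_pow_of_dvd (frey_two_dvd_b P) 5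
  have h5p : P.b ^ 5 ∣ P.b ^ P.p := pow_dvd_pow _ P.hp5
  exact (by norm_num : (32 : ℤ) = 2 ^ 5) ▸ h32.trans h5p

/-- `16 ∣ b ^ p`. -/
theorem frey_sixteen_dvd_b_pow (P : FreyPackage) : (16 : ℤ) ∣ P.b ^ P.p :=
  Dvd.dvd.trans ⟨2, by norm_num⟩ (frey_thirtytwo_dvd_b_pow P)

theorem frey_four_dvd_a₂_num (P : FreyPackage) : (4 : ℤ) ∣ P.b ^ P.p - 1 - P.a ^ P.p := by
  have h1 := frey_four_dvd_a_pow_add_one P
  have h2 : (4 : ℤ) ∣ P.b ^ P.p := Dvd.dvd.trans ⟨4, by norm_num⟩ (frey_sixteen_dvd_b_pow P)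
  have : P.b ^ P.p - 1 - P.a ^ P.p = P.b ^ P.p - (P.a ^ P.p + 1) := by ring
  rw [this]
  exact dvd_sub h2 h1

theorem frey_sixteen_dvd_a₄_num (P : FreyPackage) : (16 : ℤ) ∣ -(P.a ^ P.p) * (P.b ^ P.p) :=
  Dvd.dvd.mul_left (frey_sixteen_dvd_b_pow P) _

theorem freyCurveInt_a₁ (P : FreyPackage) : P.freyCurveInt.a₁ = 1 := rfl

theorem freyCurveInt_a₃ (P : FreyPackage) : P.freyCurveInt.a₃ = 0 := rfl

theorem freyCurveInt_a₆ (P : FreyPackage) : P.freyCurveInt.a₆ = 0 := rfl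

theorem freyCurveInt_four_mul_a₂ (P : FreyPackage) :
    4 * P.freyCurveInt.a₂ = P.b ^ P.p - 1 - P.a ^ P.p :=
  Int.mul_ediv_cancel' (frey_four_dvd_a₂_num P)

theorem freyCurveInt_sixteen_mul_a₄ (P : FreyPackage) :
    16 * P.freyCurveInt.a₄ = -(P.a ^ P.p) * (P.b ^ P.p) :=
  Int.mul_ediv_cancel' (frey_sixteen_dvd_a₄_num P)

theorem freyCurveInt_b₂ (P : FreyPackage) : P.freyCurveInt.b₂ = P.b ^ P.p - P.a ^ P.p := by
  have h2 := freyCurveInt_four_mul_a₂ P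
  simp only [WeierstrassCurve.b₂, freyCurveInt_a₁]
  linarith

theorem freyCurveInt_b₄ (P : FreyPackage) : 8 * P.freyCurveInt.b₄ = -(P.a ^ P.p) * (P.b ^ P.p) := by
  have h4 := freyCurveInt_sixteen_mul_a₄ P
  simp only [WeierstrassCurve.b₄, freyCurveInt_a₁, freyCurveInt_a₃]
  linarith

theorem freyCurveInt_b₆ (P : FreyPackage) : P.freyCurveInt.b₆ = 0 := by
  simp [WeierstrassCurve.b₆, freyCurveInt_a₃, freyCurveInt_a₆]

theorem freyCurveInt_b₈ (P : FreyPackage) :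
    256 * P.freyCurveInt.b₈ = -((P.a ^ P.p) * (P.b ^ P.p)) ^ 2 := by
  have h4 := freyCurveInt_sixteen_mul_a₄ P
  simp only [WeierstrassCurve.b₈, freyCurveInt_a₁, freyCurveInt_a₃, freyCurveInt_a₆]
  linear_combination (-16 * P.freyCurveInt.a₄ + P.a ^ P.p * P.b ^ P.p) * h4

/-- `2 ^ 8 * Δ = (a b c) ^ (2 p)`, written with `A = a ^ p` etc. -/
theorem freyCurveInt_Δ (P : FreyPackage) :
    256 * P.freyCurveInt.Δ = (P.a ^ P.p) ^ 2 * (P.b ^ P.p) ^ 2 * (P.c ^ P.p) ^ 2 := by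
  have h2 := freyCurveInt_four_mul_a₂ P
  have h4 := freyCurveInt_sixteen_mul_a₄ P
  have hF := P.hFLT
  simp only [WeierstrassCurve.Δ, WeierstrassCurve.b₂, WeierstrassCurve.b₄, WeierstrassCurve.b₆,
    WeierstrassCurve.b₈, freyCurveInt_a₁, freyCurveInt_a₃, freyCurveInt_a₆]
  rw [← hF]
  generalize P.freyCurveInt.a₂ = x at *
  generalize P.freyCurveInt.a₄ = y at *
  generalize P.a ^ P.p = A at *
  generalize P.b ^ P.p = B at *
  have hx : B = 4 * x + 1 + A := by linarith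
  subst hx
  have : (16 * y) ^ 2 * ((1 + 4 * x) ^ 2 - 4 * (16 * y)) =
      (A * (4 * x + 1 + A)) ^ 2 * ((1 + 4 * x) ^ 2 + 4 * (A * (4 * x + 1 + A))) := by
    rw [h4]; ring
  linear_combination this

/-- `2 ^ 8 * Δ = (a b c) ^ (2 p)`. -/
theorem freyCurveInt_Δ' (P : FreyPackage) :
    256 * P.freyCurveInt.Δ = (P.a * P.b * P.c) ^ (2 * P.p) := by
  rw [freyCurveInt_Δ]; ring

theorem freyCurveInt_c₄ (P : FreyPackage) :
    P.freyCurveInt.c₄ = (P.a ^ P.p) ^ 2 + P.a ^ P.p * P.b ^ P.p + (P.b ^ P.p) ^ 2 := by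
  have h2 := freyCurveInt_four_mul_a₂ P
  have h4 := freyCurveInt_sixteen_mul_a₄ P
  simp only [WeierstrassCurve.c₄, WeierstrassCurve.b₂, WeierstrassCurve.b₄, freyCurveInt_a₁,
    freyCurveInt_a₃]
  linear_combination (4 * P.freyCurveInt.a₂ + 1 + P.b ^ P.p - P.a ^ P.p) * h2 - 3 * h4

/-- `c₄ = c ^ (2 p) - (a b) ^ p`. -/
theorem freyCurveInt_c₄' (P : FreyPackage) :
    P.freyCurveInt.c₄ = (P.c ^ P.p) ^ 2 - P.a ^ P.p * P.b ^ P.p := by
  rw [freyCurveInt_c₄, ← P.hFLT]; ring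

theorem freyCurveInt_Δ_ne_zero (P : FreyPackage) : P.freyCurveInt.Δ ≠ 0 := by
  intro h
  have := freyCurveInt_Δ P
  rw [h, mul_zero] at this
  have ha := pow_ne_zero P.p P.ha0
  have hb := pow_ne_zero P.p P.hb0
  have hc := pow_ne_zero P.p P.hc0
  exact mul_ne_zero (mul_ne_zero (pow_ne_zero 2 ha) (pow_ne_zero 2 hb)) (pow_ne_zero 2 hc)
    this.symm

/-- A prime dividing the discriminant of the integral Frey model divides `a * b * c`. -/
theorem prime_dvd_abc_of_dvd_freyCurveInt_Δ (P : FreyPackage) {q : ℕ} (hq : q.Prime)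
    (hΔ : (q : ℤ) ∣ P.freyCurveInt.Δ) : (q : ℤ) ∣ P.a * P.b * P.c := by
  have hqp : Prime (q : ℤ) := Nat.prime_iff_prime_int.1 hq
  have h256 : (q : ℤ) ∣ (P.a * P.b * P.c) ^ (2 * P.p) := by
    rw [← freyCurveInt_Δ']
    exact Dvd.dvd.mul_left hΔ _
  exact hqp.dvd_of_dvd_pow h256

/-- An odd prime dividing `a * b * c` divides the discriminant of the integral Frey model. -/
theorem dvd_freyCurveInt_Δ_of_dvd_abc (P : FreyPackage) {q : ℕ} (hq : q.Prime) (hq2 : q ≠ 2)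
    (h : (q : ℤ) ∣ P.a * P.b * P.c) : (q : ℤ) ∣ P.freyCurveInt.Δ := by
  have hqp : Prime (q : ℤ) := Nat.prime_iff_prime_int.1 hq
  have h1 : (q : ℤ) ∣ 256 * P.freyCurveInt.Δ := by
    rw [freyCurveInt_Δ']
    exact dvd_pow h (by have := P.hp5; omega)
  rcases hqp.dvd_or_dvd h1 with h2 | h2
  · exfalso
    have h3 : (q : ℤ) ∣ 2 := hqp.dvd_of_dvd_pow (by norm_num at h2 ⊢; exact h2 : (q : ℤ) ∣ 2 ^ 8)
    have h4 : q ∣ 2 := by exact_mod_cast h3
    exact hq2 ((Nat.prime_dvd_prime_iff_eq hq Nat.prime_two).1 h4)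
  · exact h2

theorem freyCurveInt_isSemistableModel (P : FreyPackage) : P.freyCurveInt.IsSemistableModel := by
  intro q hq hΔ hc₄
  have hqp : Prime (q : ℤ) := Nat.prime_iff_prime_int.1 hq
  have hnot : ¬ ((q : ℤ) ∣ P.a ∧ (q : ℤ) ∣ P.b) := by
    rintro ⟨h1, h2⟩
    have : (q : ℤ) ∣ gcd P.a P.b := dvd_gcd h1 h2
    rw [P.hgcdab] at this
    exact hqp.not_dvd_one this
  rw [freyCurveInt_c₄] at hc₄
  have hF := P.hFLT
  have key1 : (q : ℤ) ∣ P.a ^ P.p → False := by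
    intro hA
    have hB2 : (q : ℤ) ∣ (P.b ^ P.p) ^ 2 := by
      have : (P.b ^ P.p) ^ 2 = ((P.a ^ P.p) ^ 2 + P.a ^ P.p * P.b ^ P.p + (P.b ^ P.p) ^ 2)
          - P.a ^ P.p * (P.a ^ P.p + P.b ^ P.p) := by ring
      rw [this]
      exact dvd_sub hc₄ (Dvd.dvd.mul_right hA _)
    exact hnot ⟨hqp.dvd_of_dvd_pow hA, hqp.dvd_of_dvd_pow (hqp.dvd_of_dvd_pow hB2)⟩
  have key2 : (q : ℤ) ∣ P.b ^ P.p → False := by
    intro hB
    have hA2 : (q : ℤ) ∣ (P.a ^ P.p) ^ 2 := by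
      have : (P.a ^ P.p) ^ 2 = ((P.a ^ P.p) ^ 2 + P.a ^ P.p * P.b ^ P.p + (P.b ^ P.p) ^ 2)
          - P.b ^ P.p * (P.a ^ P.p + P.b ^ P.p) := by ring
      rw [this]
      exact dvd_sub hc₄ (Dvd.dvd.mul_right hB _)
    exact hnot ⟨hqp.dvd_of_dvd_pow (hqp.dvd_of_dvd_pow hA2), hqp.dvd_of_dvd_pow hB⟩
  have key3 : (q : ℤ) ∣ P.c ^ P.p → False := by
    intro hC
    have hAB : (q : ℤ) ∣ P.a ^ P.p * P.b ^ P.p := by
      have : P.a ^ P.p * P.b ^ P.p = (P.c ^ P.p) * (P.c ^ P.p)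
          - ((P.a ^ P.p) ^ 2 + P.a ^ P.p * P.b ^ P.p + (P.b ^ P.p) ^ 2) := by
        rw [← hF]; ring
      rw [this]
      exact dvd_sub (Dvd.dvd.mul_right hC _) hc₄
    rcases hqp.dvd_or_dvd hAB with h | h
    · exact key1 h
    · exact key2 h
  have h256 : (q : ℤ) ∣ (P.a ^ P.p) ^ 2 * (P.b ^ P.p) ^ 2 * (P.c ^ P.p) ^ 2 := by
    rw [← freyCurveInt_Δ]
    exact Dvd.dvd.mul_left hΔ _
  rcases hqp.dvd_or_dvd h256 with h | h
  · rcases hqp.dvd_or_dvd h with h | h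
    · exact key1 (hqp.dvd_of_dvd_pow h)
    · exact key2 (hqp.dvd_of_dvd_pow h)
  · exact key3 (hqp.dvd_of_dvd_pow h)

theorem freyCurveInt_a₂_cast (P : FreyPackage) :
    (P.freyCurveInt.a₂ : ℚ) = ((P.b : ℚ) ^ P.p - 1 - (P.a : ℚ) ^ P.p) / 4 := by
  have h2 := freyCurveInt_four_mul_a₂ P
  rw [eq_div_iff (by norm_num : (4 : ℚ) ≠ 0), mul_comm]
  exact_mod_cast h2

theorem freyCurveInt_a₄_cast (P : FreyPackage) :
    (P.freyCurveInt.a₄ : ℚ) = -((P.a : ℚ) ^ P.p) * ((P.b : ℚ) ^ P.p) / 16 := by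
  have h4 := freyCurveInt_sixteen_mul_a₄ P
  rw [eq_div_iff (by norm_num : (16 : ℚ) ≠ 0), mul_comm]
  exact_mod_cast h4

/-- The integral Frey model base-changes to the Frey curve over `ℚ`. -/
theorem freyCurveInt_map (P : FreyPackage) :
    P.freyCurveInt.map (Int.castRingHom ℚ) = P.freyCurve := by
  have h2' := freyCurveInt_a₂_cast P
  have h4' := freyCurveInt_a₄_cast P
  ext
  · simp [FreyPackage.freyCurveInt, FreyPackage.freyCurve]
  · simpa [FreyPackage.freyCurve] using h2'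
  · simp [FreyPackage.freyCurveInt, FreyPackage.freyCurve]
  · simpa [FreyPackage.freyCurve] using h4'
  · simp [FreyPackage.freyCurveInt, FreyPackage.freyCurve]

theorem freyCurveInt_isIntegralModelOf (P : FreyPackage) :
    P.freyCurveInt.IsIntegralModelOf P.freyCurve :=
  ⟨1, by rw [one_smul, freyCurveInt_map]⟩

/-- The discriminant of the Frey curve over `ℚ`: `Δ = (a b c) ^ (2 p) / 2 ^ 8`. -/
theorem freyCurve_Δ (P : FreyPackage) :
    P.freyCurve.Δ = ((P.a : ℚ) * P.b * P.c) ^ (2 * P.p) / 256 := by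
  rw [← freyCurveInt_map, WeierstrassCurve.map_Δ, eq_div_iff (by norm_num : (256 : ℚ) ≠ 0),
    mul_comm]
  have := freyCurveInt_Δ' P
  simp only [eq_intCast]
  exact_mod_cast this

theorem freyCurve_Δ_ne_zero (P : FreyPackage) : P.freyCurve.Δ ≠ 0 := by
  rw [← freyCurveInt_map, WeierstrassCurve.map_Δ]
  simpa using freyCurveInt_Δ_ne_zero P

/-- The invariant `c₄` of the Frey curve over `ℚ`. -/
theorem freyCurve_c₄ (P : FreyPackage) :
    P.freyCurve.c₄ = ((P.a : ℚ) ^ P.p) ^ 2 + (P.a : ℚ) ^ P.p * (P.b : ℚ) ^ P.p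
      + ((P.b : ℚ) ^ P.p) ^ 2 := by
  rw [← freyCurveInt_map, WeierstrassCurve.map_c₄, freyCurveInt_c₄]
  simp

/-- The Frey curve is modular as soon as semistable curves are (statement S60). -/
theorem frey_isModular_of_semistable
    (h : ∀ W : WeierstrassCurve ℤ, W.Δ ≠ 0 → W.IsSemistableModel →
      (W.map (Int.castRingHom ℚ)).IsModular)
    (P : FreyPackage) : P.freyCurve.IsModular := by
  have := h P.freyCurveInt (freyCurveInt_Δ_ne_zero P) (freyCurveInt_isSemistableModel P)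
  rwa [freyCurveInt_map] at this

end Fermat.Agent.Lib
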