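import Mathlib
import Fermat.Prelude.Def_ModularCurve_GenusNumerics

set_option autoImplicit false

open Matrix MatrixGroups CongruenceSubgroup ModularGroup

namespace Fermat.Agent.Lib

/-- Coset criterion: `g⁻¹ g' ∈ Γ₀(N)` iff the first columns are proportional mod `N`. -/
theorem h86_inv_mul_mem_Gamma0_iff (N : ℕ) (g g' : SL(2, ℤ)) :
    g⁻¹ * g' ∈ Gamma0 N ↔ (N : ℤ) ∣ g 0 0 * g' 1 0 - g 1 0 * g' 0 0 := by
  rw [Gamma0_mem, ZMod.intCast_zmod_eq_zero_iff_dvd]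
  have h : (g⁻¹ * g') 1 0 = g 0 0 * g' 1 0 - g 1 0 * g' 0 0 := by
    simp [Matrix.SpecialLinearGroup.coe_inv, Matrix.adjugate_fin_two, Matrix.mul_apply,
      Fin.sum_univ_two]
    ring
  rw [h]

theorem h86_det (g : SL(2, ℤ)) : g 0 0 * g 1 1 - g 0 1 * g 1 0 = 1 := by
  have h := g.det_coe
  rw [Matrix.det_fin_two] at h
  exact h

theorem h86_T_zpow_mul_apply (n : ℤ) (g : SL(2, ℤ)) :
    (T ^ n * g) 0 0 = g 0 0 + n * g 1 0 ∧ (T ^ n * g) 1 0 = g 1 0 := by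
  constructor
  · simp [Matrix.SpecialLinearGroup.coe_mul, ModularGroup.coe_T_zpow, Matrix.mul_apply,
      Fin.sum_univ_two]
  · simp

/-- pure integer Bezout manipulation behind injectivity of the cusp invariant -/
theorem h86_exists_shift {d m e a a' c₁ c₁' : ℤ}
    (hdm : ∃ x y : ℤ, d * x + m * y = e)
    (h1 : IsCoprime c₁ m) (h2 : IsCoprime c₁' m)
    (he : e ∣ a' * c₁ - a * c₁') :
    ∃ n : ℤ, (d * m) ∣ (a + n * (d * c₁)) * (d * c₁') - (d * c₁) * a' := by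
  obtain ⟨x, y, hxy⟩ := hdm
  obtain ⟨u₁, v₁, h1⟩ := h1
  obtain ⟨u₂, v₂, h2⟩ := h2
  obtain ⟨β, hβ⟩ := he
  refine ⟨β * x * u₁ * u₂, β * (-y + x * d * (-v₁ - v₂ + v₁ * v₂ * m)), ?_⟩
  linear_combination (-d) * hβ + d * β * hxy + β * x * d ^ 2 * (u₂ * c₁') * h1
    + β * x * d ^ 2 * (1 - v₁ * m) * h2

/-- `e(d) = gcd(d, N/d)` -/
def h86_e (N d : ℕ) : ℕ := Nat.gcd d (N / d)

/-- ratio invariant `a / c₁` in `ZMod (e d)`, recorded as a natural number -/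
noncomputable def h86_F (N d : ℕ) (a c₁ : ℤ) : ℕ :=
  ((a : ZMod (h86_e N d)) * ((c₁ : ZMod (h86_e N d)))⁻¹).val

/-- the cusp invariant of a first column `(a, c)` -/
noncomputable def h86_kappa' (N : ℕ) (a c : ℤ) : (_ : ℕ) × ℕ :=
  ⟨Int.gcd c N, h86_F N (Int.gcd c N) a (c / (Int.gcd c N : ℤ))⟩

theorem h86_mul_inv_eq_iff {n : ℕ} {x y z : ZMod n} (hy : IsUnit y) :
    x * y⁻¹ = z ↔ x = z * y := by
  constructor
  · intro h; rw [← h, mul_assoc, ZMod.inv_mul_of_unit y hy, mul_one]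
  · intro h; rw [h, mul_assoc, ZMod.mul_inv_of_unit y hy, mul_one]

section facts
variable {N : ℕ} [NeZero N] (c : ℤ)

theorem h86_gcd_pos : 0 < Int.gcd c N :=
  Int.gcd_pos_of_ne_zero_right _ (by exact_mod_cast NeZero.ne N)

theorem h86_gcd_dvd_N : Int.gcd c N ∣ N := by
  have := Int.gcd_dvd_right c (N : ℤ); exact_mod_cast this

theorem h86_gcd_dvd_c : ((Int.gcd c N : ℕ) : ℤ) ∣ c := Int.gcd_dvd_left c N

theorem h86_e_pos : 0 < h86_e N (Int.gcd c N) := Nat.gcd_pos_of_pos_left _ (h86_gcd_pos c)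

omit [NeZero N] in
theorem h86_e_dvd_d (d : ℕ) : h86_e N d ∣ d := Nat.gcd_dvd_left _ _

omit [NeZero N] in
theorem h86_e_dvd_m (d : ℕ) : h86_e N d ∣ N / d := Nat.gcd_dvd_right _ _

omit [NeZero N] in
theorem h86_e_dvd_N {d : ℕ} (hd : d ∣ N) : h86_e N d ∣ N := (h86_e_dvd_d d).trans hd

theorem h86_coprime_div :
    IsCoprime (c / (Int.gcd c N : ℤ)) ((N / Int.gcd c N : ℕ) : ℤ) := by
  rw [Int.isCoprime_iff_gcd_eq_one, Int.natCast_div]
  exact Int.gcd_div_gcd_div_gcd (h86_gcd_pos c)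

theorem h86_isUnit_c₁ :
    IsUnit (((c / (Int.gcd c N : ℤ) : ℤ)) : ZMod (h86_e N (Int.gcd c N))) := by
  rw [ZMod.coe_int_isUnit_iff_isCoprime]
  exact ((h86_coprime_div c).of_isCoprime_of_dvd_right
    (Int.natCast_dvd_natCast.mpr (h86_e_dvd_m _))).symm

theorem h86_cast_c_eq_zero : ((c : ℤ) : ZMod (h86_e N (Int.gcd c N))) = 0 := by
  rw [ZMod.intCast_zmod_eq_zero_iff_dvd]
  exact (Int.natCast_dvd_natCast.mpr (h86_e_dvd_d _)).trans (h86_gcd_dvd_c c)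

end facts

/-- invariance of the cusp invariant under `T^n` (left multiplication) -/
theorem h86_kappa'_add_mul {N : ℕ} [NeZero N] (a c n : ℤ) :
    h86_kappa' N (a + n * c) c = h86_kappa' N a c := by
  unfold h86_kappa' h86_F
  congr 2
  push_cast
  rw [h86_cast_c_eq_zero c, mul_zero, add_zero]

/-- invariance of the gcd under right multiplication by `Γ₀(N)` -/
theorem h86_gcd_right {N : ℕ} [NeZero N] {c δ p q r s : ℤ}
    (hN : (N : ℤ) ∣ r) (hdet : p * s - q * r = 1) :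
    Int.gcd (c * p + δ * r) N = Int.gcd c N := by
  apply Nat.dvd_antisymm
  · -- d' ∣ d
    have hd'N : ((Int.gcd (c * p + δ * r) N : ℕ) : ℤ) ∣ (N : ℤ) := Int.gcd_dvd_right _ _
    have hd'r : ((Int.gcd (c * p + δ * r) N : ℕ) : ℤ) ∣ r := hd'N.trans hN
    have hd'c' : ((Int.gcd (c * p + δ * r) N : ℕ) : ℤ) ∣ c * p + δ * r := Int.gcd_dvd_left _ _
    have hd'cp : ((Int.gcd (c * p + δ * r) N : ℕ) : ℤ) ∣ c * p := by
      have h2 : ((Int.gcd (c * p + δ * r) N : ℕ) : ℤ) ∣ δ * r := Dvd.dvd.mul_left hd'r δ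
      have h3 := dvd_sub hd'c' h2
      simpa using h3
    have hcop : IsCoprime ((Int.gcd (c * p + δ * r) N : ℕ) : ℤ) p := by
      obtain ⟨r', hr'⟩ := hd'r
      refine ⟨-q * r', s, ?_⟩
      rw [hr'] at hdet
      linear_combination hdet
    have hd'c : ((Int.gcd (c * p + δ * r) N : ℕ) : ℤ) ∣ c := hcop.dvd_of_dvd_mul_right hd'cp
    exact Int.natCast_dvd_natCast.mp (Int.dvd_coe_gcd hd'c hd'N)
  · have hdN : ((Int.gcd c N : ℕ) : ℤ) ∣ (N : ℤ) := Int.gcd_dvd_right _ _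
    have hdc : ((Int.gcd c N : ℕ) : ℤ) ∣ c := Int.gcd_dvd_left _ _
    have h1 : ((Int.gcd c N : ℕ) : ℤ) ∣ c * p + δ * r :=
      dvd_add (Dvd.dvd.mul_right hdc p) (Dvd.dvd.mul_left (hdN.trans hN) δ)
    exact Int.natCast_dvd_natCast.mp (Int.dvd_coe_gcd h1 hdN)

/-- invariance of the cusp invariant under right multiplication by `Γ₀(N)` -/
theorem h86_kappa'_right {N : ℕ} [NeZero N] {a b c δ p q r s : ℤ}
    (hN : (N : ℤ) ∣ r) (hdet : p * s - q * r = 1) :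
    h86_kappa' N (a * p + b * r) (c * p + δ * r) = h86_kappa' N a c := by
  have hd := h86_gcd_right (N := N) (c := c) (δ := δ) hN hdet
  unfold h86_kappa'
  rw [hd]
  congr 1
  unfold h86_F
  congr 1
  -- notation
  set d := Int.gcd c N with hd_def
  have hdpos : 0 < d := h86_gcd_pos c
  have hdne : (d : ℤ) ≠ 0 := by exact_mod_cast hdpos.ne'
  have hdN : d ∣ N := h86_gcd_dvd_N c
  obtain ⟨r₀, hr₀⟩ := hN
  obtain ⟨c₁, hc₁⟩ := h86_gcd_dvd_c (N := N) c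
  obtain ⟨m, hNdm, hm0⟩ : ∃ m : ℤ, (N : ℤ) = (d : ℤ) * m ∧ ((m : ℤ) : ZMod (h86_e N d)) = 0 := by
    refine ⟨((N / d : ℕ) : ℤ), ?_, ?_⟩
    · exact_mod_cast (Nat.mul_div_cancel' hdN).symm
    · rw [ZMod.intCast_zmod_eq_zero_iff_dvd]
      exact Int.natCast_dvd_natCast.mpr (h86_e_dvd_m _)
  have hcdiv : c / (d : ℤ) = c₁ := by
    rw [hc₁]; exact Int.mul_ediv_cancel_left _ hdne
  have hc'div : (c * p + δ * r) / (d : ℤ) = c₁ * p + δ * m * r₀ := by
    have : c * p + δ * r = (d : ℤ) * (c₁ * p + δ * m * r₀) := by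
      rw [hr₀, hc₁]
      linear_combination δ * r₀ * hNdm
    rw [this]; exact Int.mul_ediv_cancel_left _ hdne
  have hN0 : ((N : ℕ) : ZMod (h86_e N d)) = 0 :=
    (ZMod.natCast_eq_zero_iff N _).mpr (h86_e_dvd_N hdN)
  have hc₁unit : IsUnit ((c₁ : ℤ) : ZMod (h86_e N d)) := by
    have := h86_isUnit_c₁ (N := N) c
    rwa [hcdiv] at this
  have hpunit : IsUnit ((p : ℤ) : ZMod (h86_e N d)) := by
    rw [ZMod.coe_int_isUnit_iff_isCoprime]
    obtain ⟨t, ht⟩ := Int.natCast_dvd_natCast.mpr (h86_e_dvd_N (N := N) hdN)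
    refine ⟨-q * r₀ * t, s, ?_⟩
    rw [hr₀, ht] at hdet
    linear_combination hdet
  rw [hcdiv, hc'div, h86_mul_inv_eq_iff]
  · push_cast
    rw [hr₀]
    push_cast
    rw [hm0, hN0]
    have h3 := ZMod.inv_mul_of_unit _ hc₁unit
    linear_combination (-(a : ZMod (h86_e N d)) * (p : ZMod (h86_e N d))) * h3
  · push_cast
    rw [hm0]
    simpa using hc₁unit.mul hpunit

/-- equal cusp invariants ⟹ same `T`-orbit of `Γ₀(N)`-cosets (integer form) -/
theorem h86_kappa'_inj {N : ℕ} [NeZero N] {a c a' c' : ℤ}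
    (h : h86_kappa' N a c = h86_kappa' N a' c') :
    ∃ n : ℤ, (N : ℤ) ∣ (a + n * c) * c' - c * a' := by
  unfold h86_kappa' at h
  have h1 : Int.gcd c N = Int.gcd c' N := congrArg Sigma.fst h
  have h2 : h86_F N (Int.gcd c N) a (c / (Int.gcd c N : ℤ))
      = h86_F N (Int.gcd c' N) a' (c' / (Int.gcd c' N : ℤ)) := eq_of_heq (Sigma.mk.inj_iff.mp h).2
  have hu' := h86_isUnit_c₁ (N := N) c'
  have hcop' := h86_coprime_div (N := N) c'
  obtain ⟨c₁', hc₁'⟩ := h86_gcd_dvd_c (N := N) c'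
  rw [← h1] at h2 hu' hcop' hc₁'
  have hu := h86_isUnit_c₁ (N := N) c
  have hcop := h86_coprime_div (N := N) c
  obtain ⟨c₁, hc₁⟩ := h86_gcd_dvd_c (N := N) c
  set d := Int.gcd c N with hd_def
  have hdpos : 0 < d := h86_gcd_pos c
  have hdne : (d : ℤ) ≠ 0 := by exact_mod_cast hdpos.ne'
  have hdN : d ∣ N := h86_gcd_dvd_N c
  have hcdiv : c / (d : ℤ) = c₁ := by
    rw [hc₁]; exact Int.mul_ediv_cancel_left _ hdne
  have hc'div : c' / (d : ℤ) = c₁' := by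
    rw [hc₁']; exact Int.mul_ediv_cancel_left _ hdne
  rw [hcdiv] at h2 hu hcop
  rw [hc'div] at h2 hu' hcop'
  have : NeZero (h86_e N d) := ⟨(Nat.gcd_pos_of_pos_left _ hdpos).ne'⟩
  unfold h86_F at h2
  have h3 := ZMod.val_injective _ h2
  rw [h86_mul_inv_eq_iff hu] at h3
  have h4 : ((a * c₁' : ℤ) : ZMod (h86_e N d)) = ((a' * c₁ : ℤ) : ZMod (h86_e N d)) := by
    push_cast
    have h5 := ZMod.inv_mul_of_unit _ hu'
    linear_combination (c₁' : ZMod (h86_e N d)) * h3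
      + (a' : ZMod (h86_e N d)) * (c₁ : ZMod (h86_e N d)) * h5
  rw [ZMod.intCast_eq_intCast_iff_dvd_sub] at h4
  have hNdm : (N : ℤ) = (d : ℤ) * ((N / d : ℕ) : ℤ) := by
    exact_mod_cast (Nat.mul_div_cancel' hdN).symm
  have hbez : ∃ x y : ℤ, (d : ℤ) * x + ((N / d : ℕ) : ℤ) * y = ((h86_e N d : ℕ) : ℤ) :=
    ⟨_, _, (Nat.gcd_eq_gcd_ab d (N / d)).symm⟩
  obtain ⟨n, hn⟩ := h86_exists_shift (a := a) (a' := a') hbez hcop hcop' h4
  refine ⟨n, ?_⟩
  rw [hNdm, hc₁, hc₁']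
  exact hn

/-- every admissible pair occurs as a cusp invariant -/
theorem h86_kappa'_surj {N : ℕ} [NeZero N] {d r : ℕ} (hd : d ∣ N) (hr : r < h86_e N d)
    (hcop : (h86_e N d).Coprime r) :
    ∃ g : SL(2, ℤ), h86_kappa' N (g 0 0) (g 1 0) = ⟨d, r⟩ := by
  have hdpos : 0 < d := Nat.pos_of_dvd_of_pos hd (Nat.pos_of_ne_zero (NeZero.ne N))
  have : NeZero d := ⟨hdpos.ne'⟩
  have : NeZero (h86_e N d) := ⟨(Nat.gcd_pos_of_pos_left _ hdpos).ne'⟩
  obtain ⟨v, hv⟩ := ZMod.unitsMap_surjective (h86_e_dvd_d (N := N) d)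
    (ZMod.unitOfCoprime r hcop.symm)
  have hcopad : IsCoprime (((v : ZMod d).val : ℕ) : ℤ) (d : ℤ) :=
    Nat.isCoprime_iff_coprime.mpr (ZMod.val_coe_unit_coprime v)
  obtain ⟨g, hg0, hg1⟩ := hcopad.exists_SL2_col 0
  refine ⟨g, ?_⟩
  rw [hg0, hg1]
  have hgcd : Int.gcd (d : ℤ) (N : ℤ) = d := by
    rw [Int.gcd_natCast_natCast]; exact Nat.gcd_eq_left hd
  unfold h86_kappa'
  rw [hgcd]
  congr 1
  unfold h86_F
  have hdd : (d : ℤ) / (d : ℤ) = 1 := Int.ediv_self (by exact_mod_cast hdpos.ne')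
  rw [hdd]
  have hone : ((1 : ℤ) : ZMod (h86_e N d))⁻¹ = 1 := by
    have := ZMod.mul_inv_of_unit ((1 : ℤ) : ZMod (h86_e N d)) (by simp)
    simpa using this
  rw [hone, mul_one]
  have hval : ((((v : ZMod d).val : ℕ) : ℤ) : ZMod (h86_e N d)) = (r : ZMod (h86_e N d)) := by
    have h1 : ((ZMod.unitsMap (h86_e_dvd_d (N := N) d) v : (ZMod (h86_e N d))ˣ) : ZMod (h86_e N d))
        = (r : ZMod (h86_e N d)) := by
      rw [hv, ZMod.coe_unitOfCoprime]
    rw [← h1]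
    simp [ZMod.unitsMap_def]
  rw [hval, ZMod.val_natCast, Nat.mod_eq_of_lt hr]

/-- cusp invariant of a matrix: depends only on the first column -/
noncomputable def h86_kappa (N : ℕ) (g : SL(2, ℤ)) : (_ : ℕ) × ℕ :=
  h86_kappa' N (g 0 0) (g 1 0)

theorem h86_kappa_mul_right {N : ℕ} [NeZero N] (g γ : SL(2, ℤ)) (hγ : γ ∈ Gamma0 N) :
    h86_kappa N (g * γ) = h86_kappa N g := by
  have hN : (N : ℤ) ∣ γ 1 0 := by
    rw [Gamma0_mem, ZMod.intCast_zmod_eq_zero_iff_dvd] at hγ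
    exact hγ
  have hdet := h86_det γ
  have h00 : (g * γ) 0 0 = g 0 0 * γ 0 0 + g 0 1 * γ 1 0 := by
    simp [Matrix.mul_apply, Fin.sum_univ_two]
  have h10 : (g * γ) 1 0 = g 1 0 * γ 0 0 + g 1 1 * γ 1 0 := by
    simp [Matrix.mul_apply, Fin.sum_univ_two]
  unfold h86_kappa
  rw [h00, h10]
  exact h86_kappa'_right (q := γ 0 1) (s := γ 1 1) hN hdet

theorem h86_kappa_T_zpow_mul {N : ℕ} [NeZero N] (n : ℤ) (g : SL(2, ℤ)) :
    h86_kappa N (T ^ n * g) = h86_kappa N g := by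
  unfold h86_kappa
  rw [(h86_T_zpow_mul_apply n g).1, (h86_T_zpow_mul_apply n g).2]
  exact h86_kappa'_add_mul _ _ _

/-- the cusp invariant on `SL(2,ℤ) ⧸ Γ₀(N)` -/
noncomputable def h86_kappaX (N : ℕ) [NeZero N] : SL(2, ℤ) ⧸ Gamma0 N → (_ : ℕ) × ℕ :=
  Quotient.lift (s := QuotientGroup.leftRel (Gamma0 N)) (h86_kappa N) (by
    intro g g' h
    have h' : g⁻¹ * g' ∈ Gamma0 N := QuotientGroup.leftRel_apply.mp h
    have := h86_kappa_mul_right (N := N) g (g⁻¹ * g') h'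
    rw [mul_inv_cancel_left] at this
    exact this.symm)

theorem h86_kappaX_mk (N : ℕ) [NeZero N] (g : SL(2, ℤ)) :
    h86_kappaX N (g : SL(2, ℤ) ⧸ Gamma0 N) = h86_kappa N g := rfl

theorem h86_kappaX_smul {N : ℕ} [NeZero N] (t : Subgroup.zpowers T) (x : SL(2, ℤ) ⧸ Gamma0 N) :
    h86_kappaX N (t • x) = h86_kappaX N x := by
  obtain ⟨t, ht⟩ := t
  obtain ⟨n, rfl⟩ := Subgroup.mem_zpowers_iff.mp ht
  induction x using QuotientGroup.induction_on with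
  | H g =>
    have : ((⟨T ^ n, ht⟩ : Subgroup.zpowers T) • (g : SL(2, ℤ) ⧸ Gamma0 N))
        = ((T ^ n * g : SL(2, ℤ)) : SL(2, ℤ) ⧸ Gamma0 N) := rfl
    rw [this, h86_kappaX_mk, h86_kappaX_mk, h86_kappa_T_zpow_mul]

/-- the cusp invariant on `T`-orbits of cosets -/
noncomputable def h86_kappaO (N : ℕ) [NeZero N] :
    MulAction.orbitRel.Quotient (Subgroup.zpowers T) (SL(2, ℤ) ⧸ Gamma0 N) → (_ : ℕ) × ℕ :=
  Quotient.lift (s := MulAction.orbitRel (Subgroup.zpowers T) (SL(2, ℤ) ⧸ Gamma0 N))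
    (h86_kappaX N) (by
      intro x y h
      obtain ⟨t, rfl⟩ := MulAction.orbitRel_apply.mp h
      exact h86_kappaX_smul t y)

theorem h86_kappaO_injective (N : ℕ) [NeZero N] : Function.Injective (h86_kappaO N) := by
  intro x y hxy
  induction x using Quotient.inductionOn with
  | h x =>
  induction y using Quotient.inductionOn with
  | h y =>
  induction x using QuotientGroup.induction_on with
  | H g =>
  induction y using QuotientGroup.induction_on with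
  | H g' =>
  have hk : h86_kappa N g = h86_kappa N g' := hxy
  obtain ⟨n, hn⟩ := h86_kappa'_inj hk
  have hmem : (T ^ n * g)⁻¹ * g' ∈ Gamma0 N := by
    rw [h86_inv_mul_mem_Gamma0_iff, (h86_T_zpow_mul_apply n g).1, (h86_T_zpow_mul_apply n g).2]
    exact hn
  have heq : ((T ^ n * g : SL(2, ℤ)) : SL(2, ℤ) ⧸ Gamma0 N) = (g' : SL(2, ℤ) ⧸ Gamma0 N) :=
    QuotientGroup.eq.mpr hmem
  apply Quotient.sound
  refine MulAction.orbitRel_apply.mpr ?_
  refine ⟨(⟨T ^ n, Subgroup.zpow_mem_zpowers T n⟩ : Subgroup.zpowers T)⁻¹, ?_⟩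
  rw [inv_smul_eq_iff]
  exact heq.symm

/-- the finite set of admissible cusp invariants -/
noncomputable def h86_target (N : ℕ) : Finset ((_ : ℕ) × ℕ) :=
  N.divisors.sigma (fun d => (Finset.range (h86_e N d)).filter (fun r => (h86_e N d).Coprime r))

theorem h86_kappa_mem_target {N : ℕ} [NeZero N] (g : SL(2, ℤ)) : h86_kappa N g ∈ h86_target N := by
  unfold h86_kappa h86_kappa' h86_target
  rw [Finset.mem_sigma]
  set c := g 1 0 with hc
  set a := g 0 0 with ha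
  set d := Int.gcd c N with hd_def
  have hdpos : 0 < d := h86_gcd_pos c
  have hdN : d ∣ N := h86_gcd_dvd_N c
  have : NeZero (h86_e N d) := ⟨(Nat.gcd_pos_of_pos_left _ hdpos).ne'⟩
  refine ⟨Nat.mem_divisors.mpr ⟨hdN, NeZero.ne N⟩, ?_⟩
  simp only [Finset.mem_filter, Finset.mem_range]
  unfold h86_F
  refine ⟨ZMod.val_lt _, ?_⟩
  have hu₁ : IsUnit (((c / (d : ℤ) : ℤ)) : ZMod (h86_e N d)) := h86_isUnit_c₁ c
  have hu₁' : IsUnit ((((c / (d : ℤ) : ℤ)) : ZMod (h86_e N d))⁻¹) :=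
    IsUnit.of_mul_eq_one _ (ZMod.inv_mul_of_unit _ hu₁)
  have hua : IsUnit ((a : ℤ) : ZMod (h86_e N d)) := by
    rw [ZMod.coe_int_isUnit_iff_isCoprime]
    have hdet := h86_det g
    obtain ⟨t, ht⟩ := (Int.natCast_dvd_natCast.mpr (h86_e_dvd_d (N := N) d)).trans
      (h86_gcd_dvd_c (N := N) c)
    refine ⟨-(g 0 1) * t, g 1 1, ?_⟩
    rw [← hc, ht] at hdet
    linear_combination hdet
  have hu := hua.mul hu₁'
  have := ZMod.val_coe_unit_coprime hu.unit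
  rw [IsUnit.unit_spec] at this
  exact this.symm

theorem h86_range_kappaO (N : ℕ) [NeZero N] :
    Set.range (h86_kappaO N) = (h86_target N : Set ((_ : ℕ) × ℕ)) := by
  ext ⟨d, r⟩
  constructor
  · rintro ⟨x, hx⟩
    induction x using Quotient.inductionOn with
    | h x =>
    induction x using QuotientGroup.induction_on with
    | H g =>
    have hk : h86_kappa N g = ⟨d, r⟩ := hx
    rw [← hk]
    exact h86_kappa_mem_target g
  · intro h
    have h' : (⟨d, r⟩ : (_ : ℕ) × ℕ) ∈ h86_target N := h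
    unfold h86_target at h'
    rw [Finset.mem_sigma] at h'
    simp only [Finset.mem_filter, Finset.mem_range] at h'
    obtain ⟨hd, hr, hcop⟩ := h'
    obtain ⟨g, hg⟩ := h86_kappa'_surj (Nat.dvd_of_mem_divisors hd) hr hcop
    exact ⟨Quotient.mk _ (g : SL(2, ℤ) ⧸ Gamma0 N), hg⟩

theorem h86_card_target (N : ℕ) : (h86_target N).card = ModularCurve.cuspCount N := by
  unfold h86_target ModularCurve.cuspCount
  rw [Finset.card_sigma]
  refine Finset.sum_congr rfl (fun d _ => ?_)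
  rw [Nat.totient_eq_card_coprime]
  rfl

/-- **Number of cusps of `Γ₀(N)`**: the number of `T`-orbits on `SL(2,ℤ) ⧸ Γ₀(N)` is
`∑ d ∣ N, φ(gcd(d, N/d))`. -/
theorem card_orbits_T (N : ℕ) [NeZero N] :
    Nat.card (MulAction.orbitRel.Quotient (Subgroup.zpowers ModularGroup.T)
      (SL(2, ℤ) ⧸ Gamma0 N)) = ModularCurve.cuspCount N := by
  rw [Nat.card_congr (Equiv.ofInjective _ (h86_kappaO_injective N)), h86_range_kappaO,
    Nat.card_coe_set_eq, Set.ncard_coe_finset, h86_card_target]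

end Fermat.Agent.Lib
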