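import Mathlib
import Fermat.Prelude.Def_ModularCurve_GenusNumerics
import Fermat.Agent.Lib.Gamma0CuspCount

set_option autoImplicit false

open Matrix MatrixGroups CongruenceSubgroup ModularGroup

namespace Fermat.Agent.Lib

/-- The matrix `[[x, -1], [1, 0]]` in `SL(2, ℤ)`. -/
def h86e_rep (x : ℤ) : SL(2, ℤ) := ⟨!![x, -1; 1, 0], by simp [Matrix.det_fin_two]⟩

@[simp] theorem h86e_rep_00 (x : ℤ) : h86e_rep x 0 0 = x := rfl
@[simp] theorem h86e_rep_10 (x : ℤ) : h86e_rep x 1 0 = 1 := rfl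

/-- if `N ∣ a² + t a c + c²` with `a, c` coprime then `c` is a unit mod `N`. -/
theorem h86e_isUnit (N : ℕ) (t : ℤ) (g : SL(2, ℤ))
    (h : (N : ℤ) ∣ g 0 0 ^ 2 + t * g 0 0 * g 1 0 + g 1 0 ^ 2) :
    IsUnit ((g 1 0 : ℤ) : ZMod N) := by
  have hdet := h86_det g
  have hcop : IsCoprime (g 1 0) (g 0 0) := ⟨-g 0 1, g 1 1, by linarith⟩
  have h2 : IsCoprime (g 1 0) (g 0 0 ^ 2) := hcop.pow_right
  obtain ⟨k, hk⟩ := h
  have h3 : IsCoprime (g 1 0) ((N : ℤ) * k) := by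
    have : (N : ℤ) * k = g 0 0 ^ 2 + g 1 0 * (t * g 0 0 + g 1 0) := by rw [← hk]; ring
    rw [this]
    exact h2.add_mul_left_right _
  have h4 : IsCoprime (g 1 0) (N : ℤ) := h3.of_mul_right_left
  obtain ⟨u, v, huv⟩ := h4
  have : ((u : ℤ) : ZMod N) * ((g 1 0 : ℤ) : ZMod N) = 1 := by
    have := congrArg (Int.cast : ℤ → ZMod N) huv
    simpa using this
  exact IsUnit.of_mul_eq_one _ (by rw [mul_comm]; exact this)

/-- Generic count of fixed cosets of an "elliptic-type" element. -/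
theorem h86e_card_fixedBy_of (N : ℕ) [NeZero N] (h : SL(2, ℤ)) (t : ℤ)
    (hcrit : ∀ g : SL(2, ℤ), g⁻¹ * (h * g) ∈ Gamma0 N ↔
      (N : ℤ) ∣ g 0 0 ^ 2 + t * g 0 0 * g 1 0 + g 1 0 ^ 2) :
    Nat.card (MulAction.fixedBy (SL(2, ℤ) ⧸ Gamma0 N) h) =
      Nat.card {x : ZMod N // x ^ 2 + (t : ZMod N) * x + 1 = 0} := by
  have hfix : ∀ g : SL(2, ℤ), ((g : SL(2, ℤ) ⧸ Gamma0 N) ∈ MulAction.fixedBy (SL(2, ℤ) ⧸ Gamma0 N) h)
      ↔ (N : ℤ) ∣ g 0 0 ^ 2 + t * g 0 0 * g 1 0 + g 1 0 ^ 2 := by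
    intro g
    rw [MulAction.mem_fixedBy, ← hcrit g, MulAction.Quotient.smul_mk, eq_comm, QuotientGroup.eq,
      smul_eq_mul]
  symm
  refine Nat.card_eq_of_bijective
    (fun x : {x : ZMod N // x ^ 2 + (t : ZMod N) * x + 1 = 0} =>
      (⟨((h86e_rep (x.1.val : ℤ) : SL(2, ℤ)) : SL(2, ℤ) ⧸ Gamma0 N), by
        rw [hfix, ← ZMod.intCast_zmod_eq_zero_iff_dvd]
        have := x.2
        simpa using this⟩ : MulAction.fixedBy (SL(2, ℤ) ⧸ Gamma0 N) h)) ⟨?_, ?_⟩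
  · rintro ⟨x, hx⟩ ⟨y, hy⟩ hxy
    have h1 := congrArg Subtype.val hxy
    simp only at h1
    rw [QuotientGroup.eq, h86_inv_mul_mem_Gamma0_iff, ← ZMod.intCast_zmod_eq_zero_iff_dvd] at h1
    apply Subtype.ext
    simp only [h86e_rep_00, h86e_rep_10] at h1
    have h2 : x - y = 0 := by simpa using h1
    exact sub_eq_zero.mp h2
  · rintro ⟨q, hq⟩
    induction q using QuotientGroup.induction_on with
    | H g =>
      rw [hfix] at hq
      have hu := h86e_isUnit N t g hq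
      obtain ⟨u, hu'⟩ := hu
      have hq' : ((g 0 0 : ℤ) : ZMod N) ^ 2 + (t : ZMod N) * (g 0 0 : ℤ) * (u : ZMod N)
          + (u : ZMod N) ^ 2 = 0 := by
        rw [← ZMod.intCast_zmod_eq_zero_iff_dvd] at hq
        rw [hu']
        simpa using hq
      refine ⟨⟨((g 0 0 : ℤ) : ZMod N) * ((u⁻¹ : (ZMod N)ˣ) : ZMod N), ?_⟩, ?_⟩
      · have : (((g 0 0 : ℤ) : ZMod N) * ((u⁻¹ : (ZMod N)ˣ) : ZMod N)) ^ 2
            + (t : ZMod N) * (((g 0 0 : ℤ) : ZMod N) * ((u⁻¹ : (ZMod N)ˣ) : ZMod N)) + 1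
            = (((g 0 0 : ℤ) : ZMod N) ^ 2 + (t : ZMod N) * (g 0 0 : ℤ) * (u : ZMod N)
              + (u : ZMod N) ^ 2) * ((u⁻¹ : (ZMod N)ˣ) : ZMod N) ^ 2 := by
          have hu1 : (u : ZMod N) * ((u⁻¹ : (ZMod N)ˣ) : ZMod N) = 1 := u.mul_inv
          linear_combination (-(t : ZMod N) * ((g 0 0 : ℤ) : ZMod N) * ((u⁻¹ : (ZMod N)ˣ) : ZMod N)
            - (u : ZMod N) * ((u⁻¹ : (ZMod N)ˣ) : ZMod N) - 1) * hu1
        rw [this, hq', zero_mul]
      · apply Subtype.ext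
        simp only
        rw [QuotientGroup.eq, h86_inv_mul_mem_Gamma0_iff, ← ZMod.intCast_zmod_eq_zero_iff_dvd]
        simp only [h86e_rep_00, h86e_rep_10]
        push_cast
        rw [ZMod.natCast_zmod_val, ← hu']
        have hu1 : ((u⁻¹ : (ZMod N)ˣ) : ZMod N) * (u : ZMod N) = 1 := u.inv_mul
        linear_combination ((g 0 0 : ℤ) : ZMod N) * hu1

theorem card_fixedBy_S (N : ℕ) [NeZero N] :
    Nat.card (MulAction.fixedBy (SL(2, ℤ) ⧸ Gamma0 N) ModularGroup.S) = ModularCurve.nuTwo N := by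
  rw [h86e_card_fixedBy_of N ModularGroup.S 0, ModularCurve.nuTwo]
  · simp
  · intro g
    rw [h86_inv_mul_mem_Gamma0_iff]
    have h1 : (S * g) 1 0 = g 0 0 := by
      simp [Matrix.SpecialLinearGroup.coe_mul, ModularGroup.coe_S, Matrix.mul_apply,
        Fin.sum_univ_two]
    have h2 : (S * g) 0 0 = - g 1 0 := by
      simp [Matrix.SpecialLinearGroup.coe_mul, ModularGroup.coe_S, Matrix.mul_apply,
        Fin.sum_univ_two]
    rw [h1, h2]
    constructor <;> intro hh <;> convert hh using 1 <;> ring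

theorem card_fixedBy_ST (N : ℕ) [NeZero N] :
    Nat.card (MulAction.fixedBy (SL(2, ℤ) ⧸ Gamma0 N) (ModularGroup.S * ModularGroup.T)) =
      ModularCurve.nuThree N := by
  rw [h86e_card_fixedBy_of N (ModularGroup.S * ModularGroup.T) 1, ModularCurve.nuThree]
  · simp
  · intro g
    rw [h86_inv_mul_mem_Gamma0_iff]
    have h1 : (S * T * g) 1 0 = g 0 0 + g 1 0 := by
      simp [Matrix.SpecialLinearGroup.coe_mul, ModularGroup.coe_S, ModularGroup.coe_T,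
        Matrix.mul_apply, Fin.sum_univ_two]
    have h2 : (S * T * g) 0 0 = - g 1 0 := by
      simp [Matrix.SpecialLinearGroup.coe_mul, ModularGroup.coe_S, ModularGroup.coe_T,
        Matrix.mul_apply, Fin.sum_univ_two]
    rw [h1, h2]
    constructor <;> intro hh <;> convert hh using 1 <;> ring

end Fermat.Agent.Lib
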