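import Mathlib
import Fermat.Prelude.Def_ModularCurve_GenusNumerics
import Fermat.Agent.Lib.Gamma0Elliptic

/-!
# Coset combinatorics for `Γ₀(N)` (shared library, owner helper81)

`X = SL(2, ℤ) ⧸ Gamma0 N` (left cosets, Mathlib's left-multiplication action).

Export (namespace `Fermat.Agent.Lib`, with `MatrixGroups` and `CongruenceSubgroup` opened):

* `card_quotient_Gamma0 : Nat.card (SL(2, ℤ) ⧸ Gamma0 N) = ModularCurve.dedekindPsi N`

The companion counts `card_fixedBy_S` (`= ModularCurve.nuTwo N`), `card_fixedBy_ST`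
(`= ModularCurve.nuThree N`) and `card_orbits_T` (`= ModularCurve.cuspCount N`) are declared in
`Fermat.Agent.Lib.Gamma0Elliptic` and `Fermat.Agent.Lib.Gamma0CuspCount` (helper86); this file
imports them, so importing `Fermat.Agent.Lib.Gamma0Cosets` gives all four counts.

Auxiliary material lives in `Fermat.Agent.Lib.G0C`: the coset of `g` is determined by the
first column of `g` mod `N` up to a unit (`G0C.mk_eq_mk_iff`, `G0C.mk_eq_mk_iff_col`), every
coprime pair mod `N` is such a column (`G0C.col_surjective`), and coprime pairs are counted by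
the Chinese remainder theorem (`G0C.card_primPair`).
-/

set_option autoImplicit false

open ModularCurve

namespace Fermat.Agent.Lib

namespace G0C

/-- primitive pairs mod `N` -/
abbrev PrimPair (N : ℕ) := {p : ZMod N × ZMod N // IsCoprime p.1 p.2}

/-- indicator of squarefree numbers as an arithmetic function -/
noncomputable def sqfInd : ArithmeticFunction ℕ :=
  ⟨fun n => if n ≠ 0 ∧ Squarefree n then 1 else 0, by simp⟩

theorem sqfInd_apply (n : ℕ) : sqfInd n = if n ≠ 0 ∧ Squarefree n then 1 else 0 := rfl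

theorem sqfInd_isMultiplicative : sqfInd.IsMultiplicative := by
  refine ⟨by simp [sqfInd_apply], ?_⟩
  intro m n hmn
  simp only [sqfInd_apply]
  by_cases hm : m = 0
  · simp [hm]
  by_cases hn : n = 0
  · simp [hn]
  have hmn' : m.Coprime n := hmn
  have hg : m.gcd n = 1 := hmn
  simp only [ne_eq, mul_eq_zero, hm, hn, or_self, not_false_eq_true, true_and,
    Nat.squarefree_mul_iff]
  by_cases h1 : Squarefree m <;> by_cases h2 : Squarefree n <;> simp [h1, h2, Nat.Coprime, hg]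

theorem dedekindPsi_eq (N : ℕ) : dedekindPsi N = (sqfInd * ArithmeticFunction.id) N := by
  rw [ArithmeticFunction.mul_apply, Nat.sum_divisorsAntidiagonal (fun a b => sqfInd a * ArithmeticFunction.id b),
    dedekindPsi, Finset.sum_filter]
  refine Finset.sum_congr rfl fun d hd => ?_
  have hd0 : d ≠ 0 := (Nat.pos_of_mem_divisors hd).ne'
  by_cases h : Squarefree d <;> simp [sqfInd_apply, h, hd0]

theorem dedekindPsi_mul {M N : ℕ} (h : M.Coprime N) :
    dedekindPsi (M * N) = dedekindPsi M * dedekindPsi N := by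
  simp only [dedekindPsi_eq]
  exact (sqfInd_isMultiplicative.mul ArithmeticFunction.isMultiplicative_id).map_mul_of_coprime h

theorem dedekindPsi_prime_pow {p : ℕ} (hp : p.Prime) {e : ℕ} (he : 0 < e) :
    dedekindPsi (p ^ e) = p ^ e + p ^ (e - 1) := by
  obtain ⟨k, rfl⟩ : ∃ k, e = k + 1 := ⟨e - 1, by omega⟩
  rw [dedekindPsi, Finset.sum_filter, Nat.divisors_prime_pow hp, Finset.sum_map]
  simp only [Function.Embedding.coeFn_mk]
  rw [Finset.sum_range_succ', Finset.sum_range_succ']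
  have h0 : ∀ i ∈ Finset.range k, (if Squarefree (p ^ (i + 1 + 1)) then p ^ (k + 1) / p ^ (i + 1 + 1) else 0) = 0 := by
    intro i _
    rw [if_neg]
    rw [Nat.squarefree_pow_iff hp.ne_one (by omega)]
    omega
  rw [Finset.sum_eq_zero h0]
  simp only [zero_add, pow_one, pow_zero, squarefree_one, if_true, Nat.div_one, hp.squarefree,
    Nat.add_sub_cancel]
  rw [pow_succ, Nat.mul_div_cancel _ hp.pos]
  ring



theorem isCoprime_prod_iff {R S : Type*} [CommRing R] [CommRing S] (a c : R × S) :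
    IsCoprime a c ↔ IsCoprime a.1 c.1 ∧ IsCoprime a.2 c.2 := by
  constructor
  · intro h
    exact ⟨h.map (RingHom.fst R S), h.map (RingHom.snd R S)⟩
  · rintro ⟨⟨x₁, y₁, h₁⟩, ⟨x₂, y₂, h₂⟩⟩
    exact ⟨(x₁, x₂), (y₁, y₂), Prod.ext h₁ h₂⟩

/-- CRT for primitive pairs -/
noncomputable def primPairCRT {M N : ℕ} (h : M.Coprime N) :
    PrimPair (M * N) ≃ PrimPair M × PrimPair N where
  toFun p :=
    (⟨((ZMod.chineseRemainder h p.1.1).1, (ZMod.chineseRemainder h p.1.2).1),
      ((isCoprime_prod_iff _ _).1 (p.2.map (ZMod.chineseRemainder h).toRingHom)).1⟩,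
     ⟨((ZMod.chineseRemainder h p.1.1).2, (ZMod.chineseRemainder h p.1.2).2),
      ((isCoprime_prod_iff _ _).1 (p.2.map (ZMod.chineseRemainder h).toRingHom)).2⟩)
  invFun q :=
    ⟨((ZMod.chineseRemainder h).symm (q.1.1.1, q.2.1.1), (ZMod.chineseRemainder h).symm (q.1.1.2, q.2.1.2)),
      ((isCoprime_prod_iff (q.1.1.1, q.2.1.1) (q.1.1.2, q.2.1.2)).2 ⟨q.1.2, q.2.2⟩).map
        (ZMod.chineseRemainder h).symm.toRingHom⟩
  left_inv p := by
    apply Subtype.ext
    apply Prod.ext <;> simp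
  right_inv q := by
    apply Prod.ext <;> apply Subtype.ext <;> apply Prod.ext <;> simp

theorem card_primPair_mul {M N : ℕ} (h : M.Coprime N) :
    Nat.card (PrimPair (M * N)) = Nat.card (PrimPair M) * Nat.card (PrimPair N) := by
  rw [Nat.card_congr (primPairCRT h), Nat.card_prod]

theorem card_isUnit_zmod (N : ℕ) [NeZero N] :
    Nat.card {a : ZMod N // IsUnit a} = N.totient := by
  have e : (ZMod N)ˣ ≃ {a : ZMod N // IsUnit a} :=
    Equiv.ofBijective (fun u => ⟨u, u.isUnit⟩)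
      ⟨fun u v h => Units.ext (congrArg Subtype.val h), fun ⟨a, ha⟩ => ⟨ha.unit, rfl⟩⟩
  rw [← Nat.card_congr e, Nat.card_eq_fintype_card, ZMod.card_units_eq_totient]

theorem isCoprime_zmod_prime_pow_iff {p : ℕ} (hp : p.Prime) {e : ℕ} (he : 0 < e)
    (a c : ZMod (p ^ e)) : IsCoprime a c ↔ IsUnit a ∨ IsUnit c := by
  have : Fact p.Prime := ⟨hp⟩
  have : NeZero (p ^ e) := ⟨(pow_pos hp.pos e).ne'⟩
  have key : ∀ b : ZMod (p ^ e), ¬ IsUnit b →
      ZMod.castHom (dvd_pow_self p he.ne') (ZMod p) b = 0 := by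
    intro b hb
    rw [ZMod.castHom_apply, ← ZMod.natCast_val, ZMod.natCast_eq_zero_iff]
    by_contra hdvd
    apply hb
    rw [← ZMod.natCast_zmod_val b, ZMod.isUnit_iff_coprime]
    exact Nat.Coprime.pow_right e ((Nat.Prime.coprime_iff_not_dvd hp).2 hdvd).symm
  constructor
  · intro h
    by_contra hcon
    rw [not_or] at hcon
    have h' := h.map (ZMod.castHom (dvd_pow_self p he.ne') (ZMod p))
    rw [key a hcon.1, key c hcon.2, isCoprime_zero_left] at h'
    exact not_isUnit_zero h'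
  · rintro (h | h)
    · obtain ⟨u, rfl⟩ := h
      exact ⟨↑u⁻¹, 0, by simp⟩
    · obtain ⟨u, rfl⟩ := h
      exact ⟨0, ↑u⁻¹, by simp⟩

theorem card_primPair_prime_pow {p : ℕ} (hp : p.Prime) {e : ℕ} (he : 0 < e) :
    Nat.card (PrimPair (p ^ e)) = (p ^ e).totient * (p ^ e + p ^ (e - 1)) := by
  classical
  have hN : NeZero (p ^ e) := ⟨(pow_pos hp.pos e).ne'⟩
  obtain ⟨k, rfl⟩ : ∃ k, e = k + 1 := ⟨e - 1, by omega⟩
  obtain ⟨m, rfl⟩ : ∃ m, p = m + 1 := ⟨p - 1, by have := hp.pos; omega⟩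
  set N := (m + 1) ^ (k + 1) with hNdef
  -- units and non-units
  have hU : Fintype.card {a : ZMod N // IsUnit a} = N.totient := by
    rw [← Nat.card_eq_fintype_card, card_isUnit_zmod]
  have hNU : Fintype.card {a : ZMod N // ¬ IsUnit a} = N - N.totient := by
    rw [Fintype.card_subtype_compl, hU, ZMod.card]
  have htot : N.totient = (m + 1) ^ k * m := by
    rw [hNdef, Nat.totient_prime_pow hp (by omega)]
    simp
  have hNeq : N = (m + 1) ^ k * (m + 1) := by rw [hNdef, pow_succ]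
  have hNU' : Fintype.card {a : ZMod N // ¬ IsUnit a} = (m + 1) ^ k := by
    rw [hNU, htot, hNeq]
    have : (m + 1) ^ k * (m + 1) = (m + 1) ^ k * m + (m + 1) ^ k := by ring
    omega
  -- the pairs
  have e1 : PrimPair N ≃ {q : ZMod N × ZMod N // IsUnit q.1 ∨ IsUnit q.2} :=
    Equiv.subtypeEquivRight fun q => isCoprime_zmod_prime_pow_iff hp (by omega) q.1 q.2
  have e2 : {q : ZMod N × ZMod N // ¬ (IsUnit q.1 ∨ IsUnit q.2)} ≃
      {a : ZMod N // ¬ IsUnit a} × {a : ZMod N // ¬ IsUnit a} :=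
    { toFun := fun q => (⟨q.1.1, fun h => q.2 (Or.inl h)⟩, ⟨q.1.2, fun h => q.2 (Or.inr h)⟩)
      invFun := fun r => ⟨(r.1.1, r.2.1), fun h => h.elim r.1.2 r.2.2⟩
      left_inv := fun q => rfl
      right_inv := fun r => rfl }
  have h2 : Fintype.card {q : ZMod N × ZMod N // ¬ (IsUnit q.1 ∨ IsUnit q.2)} =
      (m + 1) ^ k * (m + 1) ^ k := by
    rw [Fintype.card_congr e2, Fintype.card_prod, hNU']
  have h3 := Fintype.card_subtype_compl (fun q : ZMod N × ZMod N => IsUnit q.1 ∨ IsUnit q.2)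
  have h4 : Fintype.card {q : ZMod N × ZMod N // IsUnit q.1 ∨ IsUnit q.2} ≤
      Fintype.card (ZMod N × ZMod N) := Fintype.card_subtype_le _
  have h5 : Fintype.card (ZMod N × ZMod N) = N * N := by
    rw [Fintype.card_prod, ZMod.card]
  rw [Nat.card_congr e1, Nat.card_eq_fintype_card, htot]
  simp only [Nat.add_sub_cancel]
  rw [h2, h5] at h3
  rw [h5] at h4
  have h6 : Fintype.card {q : ZMod N × ZMod N // IsUnit q.1 ∨ IsUnit q.2} + (m + 1) ^ k * (m + 1) ^ k
      = N * N := by omega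
  have h7 : (m + 1) ^ k * m * (N + (m + 1) ^ k) + (m + 1) ^ k * (m + 1) ^ k = N * N := by
    rw [hNeq]; ring
  omega


theorem card_primPair (N : ℕ) (hN : 0 < N) :
    Nat.card (PrimPair N) = N.totient * dedekindPsi N := by
  induction N using Nat.recOnPosPrimePosCoprime with
  | prime_pow p n hp hn => rw [card_primPair_prime_pow hp hn, dedekindPsi_prime_pow hp hn]
  | zero => omega
  | one =>
    rw [Nat.totient_one, dedekindPsi_one, mul_one]
    have : Subsingleton (ZMod 1) := inferInstance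
    have e : PrimPair 1 ≃ Unit :=
      { toFun := fun _ => ()
        invFun := fun _ => ⟨(0, 0), ⟨0, 0, Subsingleton.elim _ _⟩⟩
        left_inv := fun q => Subtype.ext (Subsingleton.elim _ _)
        right_inv := fun _ => rfl }
    rw [Nat.card_congr e]
    simp
  | coprime a b ha hb hab iha ihb =>
    rw [card_primPair_mul hab, iha (by omega), ihb (by omega), Nat.totient_mul hab,
      dedekindPsi_mul hab]
    ring


theorem isCoprime_zmod_iff (N : ℕ) [NeZero N] (a c : ZMod N) :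
    IsCoprime a c ↔ Nat.Coprime a.val (Nat.gcd c.val N) := by
  constructor
  · rintro ⟨x, y, h⟩
    set g := Nat.gcd a.val (Nat.gcd c.val N) with hg
    have hgN : g ∣ N := (Nat.gcd_dvd_right _ _).trans (Nat.gcd_dvd_right _ _)
    have hga : g ∣ a.val := Nat.gcd_dvd_left _ _
    have hgc : g ∣ c.val := (Nat.gcd_dvd_right _ _).trans (Nat.gcd_dvd_left _ _)
    have h' := congrArg (ZMod.castHom hgN (ZMod g)) h
    rw [map_add, map_mul, map_mul, map_one] at h'
    have ha0 : ZMod.castHom hgN (ZMod g) a = 0 := by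
      rw [ZMod.castHom_apply, ← ZMod.natCast_val, ZMod.natCast_eq_zero_iff]; exact hga
    have hc0 : ZMod.castHom hgN (ZMod g) c = 0 := by
      rw [ZMod.castHom_apply, ← ZMod.natCast_val, ZMod.natCast_eq_zero_iff]; exact hgc
    rw [ha0, hc0, mul_zero, mul_zero, add_zero] at h'
    have h1 : ((1 : ℕ) : ZMod g) = 0 := by rw [Nat.cast_one]; exact h'.symm
    rw [ZMod.natCast_eq_zero_iff] at h1
    exact Nat.dvd_one.mp h1
  · intro h
    have h1 : IsCoprime (a.val : ℤ) ((Nat.gcd c.val N : ℕ) : ℤ) := Nat.isCoprime_iff_coprime.2 h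
    obtain ⟨s, t, hst⟩ := h1
    have h2 : ((Nat.gcd c.val N : ℕ) : ℤ) = (c.val : ℤ) * Nat.gcdA c.val N + (N : ℤ) * Nat.gcdB c.val N :=
      Nat.gcd_eq_gcd_ab c.val N
    rw [h2] at hst
    refine ⟨(s : ZMod N), (t * Nat.gcdA c.val N : ℤ), ?_⟩
    have h3 := congrArg (Int.cast : ℤ → ZMod N) hst
    push_cast at h3
    rw [ZMod.natCast_zmod_val, ZMod.natCast_zmod_val, ZMod.natCast_self] at h3
    push_cast
    linear_combination h3

section Group

open MatrixGroups CongruenceSubgroup ModularGroup Matrix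

/-- The `(1,0)` entry of `g⁻¹ * h`. -/
lemma inv_mul_apply_one_zero (g h : SL(2, ℤ)) :
    (g⁻¹ * h : SL(2, ℤ)) 1 0 = g 0 0 * h 1 0 - g 1 0 * h 0 0 := by
  simp [Matrix.SpecialLinearGroup.coe_inv, Matrix.adjugate_fin_two, Matrix.mul_apply,
    Fin.sum_univ_two]
  ring

/-- Two left cosets of `Γ₀(N)` agree iff the first columns are proportional mod `N`. -/
lemma mk_eq_mk_iff (N : ℕ) (g h : SL(2, ℤ)) :
    (QuotientGroup.mk g : SL(2, ℤ) ⧸ Gamma0 N) = QuotientGroup.mk h ↔
      ((g 0 0 : ℤ) : ZMod N) * ((h 1 0 : ℤ) : ZMod N)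
        - ((g 1 0 : ℤ) : ZMod N) * ((h 0 0 : ℤ) : ZMod N) = 0 := by
  rw [QuotientGroup.eq, Gamma0_mem, inv_mul_apply_one_zero]
  push_cast
  rfl

/-- first column mod `N` -/
def col (N : ℕ) (g : SL(2, ℤ)) : PrimPair N :=
  ⟨(((g 0 0 : ℤ) : ZMod N), ((g 1 0 : ℤ) : ZMod N)),
    (Matrix.SpecialLinearGroup.isCoprime_col g 0).map (Int.castRingHom (ZMod N))⟩

/-- lifting a coprime residue to an integer coprime to a given nonzero one -/
lemma exists_coprime_add_mul (x n m : ℕ) (hm : m ≠ 0) (hx : Nat.Coprime x (Nat.gcd m n)) :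
    ∃ k : ℕ, (x + k * n).Coprime m := by
  let ps : Finset ℕ := {p ∈ m.primeFactors | ¬p ∣ x}
  use ps.prod id
  apply Nat.coprime_of_dvd
  intro p pp hp hpn
  by_cases hpx : p ∣ x
  · have h := Nat.dvd_sub hp hpx
    rw [add_comm, Nat.add_sub_cancel] at h
    rcases pp.dvd_mul.mp h with h | h
    · have ⟨q, hq, hq'⟩ := (pp.prime.dvd_finsetProd_iff id).mp h
      rw [Finset.mem_filter, Nat.mem_primeFactors,
        ← (Nat.prime_dvd_prime_iff_eq pp hq.1.1).mp hq'] at hq
      exact hq.2 hpx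
    · exact Nat.Prime.not_coprime_iff_dvd.mpr ⟨p, pp, hpx, Nat.dvd_gcd hpn h⟩ hx
  · have pps : p ∈ ps := Finset.mem_filter.mpr ⟨Nat.mem_primeFactors.mpr ⟨pp, hpn, hm⟩, hpx⟩
    have h := Nat.dvd_sub hp ((Finset.dvd_prod_of_mem id pps).mul_right n)
    rw [Nat.add_sub_cancel] at h
    contradiction

lemma col_surjective (N : ℕ) [NeZero N] : Function.Surjective (col N) := by
  rintro ⟨⟨a, c⟩, hac⟩
  have hac' : Nat.Coprime a.val (Nat.gcd c.val N) := (isCoprime_zmod_iff N a c).1 hac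
  obtain ⟨a₁, c₁, h1, ha, hc⟩ : ∃ a₁ c₁ : ℤ, IsCoprime a₁ c₁ ∧ (a₁ : ZMod N) = a ∧
      (c₁ : ZMod N) = c := by
    by_cases hc0 : c.val = 0
    · refine ⟨a.val, N, ?_, ?_, ?_⟩
      · rw [hc0, Nat.gcd_zero_left] at hac'
        exact Nat.isCoprime_iff_coprime.2 hac'
      · simp
      · have : c = 0 := (ZMod.val_eq_zero c).1 hc0
        simp [this]
    · obtain ⟨k, hk⟩ := exists_coprime_add_mul a.val N c.val hc0 hac'
      refine ⟨((a.val + k * N : ℕ) : ℤ), c.val, Nat.isCoprime_iff_coprime.2 hk, ?_, ?_⟩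
      · simp
      · simp
  obtain ⟨g, hg0, hg1⟩ := h1.exists_SL2_col 0
  refine ⟨g, ?_⟩
  apply Subtype.ext
  simp only [col]
  rw [hg0, hg1, ha, hc]

/-- proportionality of coprime pairs -/
lemma prop_iff {R : Type*} [CommRing R] {a c a' c' : R} (h : IsCoprime a c)
    (h' : IsCoprime a' c') :
    a * c' - c * a' = 0 ↔ ∃ u : Rˣ, a' = u * a ∧ c' = u * c := by
  constructor
  · intro h0
    obtain ⟨x, y, hxy⟩ := h
    obtain ⟨x', y', hxy'⟩ := h'
    have e1 : (x * a' + y * c') * a = a' := by linear_combination a' * hxy + y * h0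
    have e2 : (x * a' + y * c') * c = c' := by linear_combination c' * hxy - x * h0
    have e5 : (x * a' + y * c') * (x' * a + y' * c) = 1 := by
      linear_combination x' * e1 + y' * e2 + hxy'
    refine ⟨⟨x * a' + y * c', x' * a + y' * c, e5, by rw [mul_comm]; exact e5⟩, e1.symm, e2.symm⟩
  · rintro ⟨u, rfl, rfl⟩
    ring

lemma mk_eq_mk_iff_col (N : ℕ) (g h : SL(2, ℤ)) :
    (QuotientGroup.mk g : SL(2, ℤ) ⧸ Gamma0 N) = QuotientGroup.mk h ↔
      ∃ u : (ZMod N)ˣ, (col N h).1.1 = u * (col N g).1.1 ∧ (col N h).1.2 = u * (col N g).1.2 := by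
  rw [mk_eq_mk_iff]
  exact prop_iff (col N g).2 (col N h).2

/-- scaling a primitive pair by a unit -/
def smulPair (N : ℕ) (u : (ZMod N)ˣ) (v : PrimPair N) : PrimPair N :=
  ⟨((u : ZMod N) * v.1.1, (u : ZMod N) * v.1.2), by
    obtain ⟨x, y, h⟩ := v.2
    exact ⟨x * ↑u⁻¹, y * ↑u⁻¹, by
      have h1 : ((u⁻¹ : (ZMod N)ˣ) : ZMod N) * (u : ZMod N) = 1 := u.inv_mul
      linear_combination h + (x * v.1.1 + y * v.1.2) * h1⟩⟩

/-- the parametrisation of primitive pairs by cosets and units -/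
noncomputable def pairMap (N : ℕ) (p : (SL(2, ℤ) ⧸ Gamma0 N) × (ZMod N)ˣ) : PrimPair N :=
  smulPair N p.2 (col N p.1.out)

lemma pairMap_injective (N : ℕ) : Function.Injective (pairMap N) := by
  rintro ⟨x, u⟩ ⟨x', u'⟩ h
  have h1 : (u : ZMod N) * (col N x.out).1.1 = (u' : ZMod N) * (col N x'.out).1.1 :=
    congrArg (fun v : PrimPair N => v.1.1) h
  have h2 : (u : ZMod N) * (col N x.out).1.2 = (u' : ZMod N) * (col N x'.out).1.2 :=
    congrArg (fun v : PrimPair N => v.1.2) h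
  have hu' : ((u'⁻¹ : (ZMod N)ˣ) : ZMod N) * (u' : ZMod N) = 1 := u'.inv_mul
  have hx : x = x' := by
    rw [← QuotientGroup.out_eq' x, ← QuotientGroup.out_eq' x', mk_eq_mk_iff_col]
    refine ⟨u'⁻¹ * u, ?_, ?_⟩
    · push_cast
      linear_combination (-(col N x'.out).1.1) * hu' - ((u'⁻¹ : (ZMod N)ˣ) : ZMod N) * h1
    · push_cast
      linear_combination (-(col N x'.out).1.2) * hu' - ((u'⁻¹ : (ZMod N)ˣ) : ZMod N) * h2
  subst hx
  obtain ⟨a, b, hab⟩ := (col N x.out).2
  have hu : (u : ZMod N) = u' := by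
    linear_combination (u - u' : ZMod N) * (-hab) + a * h1 + b * h2
  rw [Units.ext hu]

lemma pairMap_surjective (N : ℕ) [NeZero N] : Function.Surjective (pairMap N) := by
  intro v
  obtain ⟨g, rfl⟩ := col_surjective N v
  have h : (QuotientGroup.mk (QuotientGroup.mk g : SL(2, ℤ) ⧸ Gamma0 N).out :
      SL(2, ℤ) ⧸ Gamma0 N) = QuotientGroup.mk g := QuotientGroup.out_eq' _
  rw [mk_eq_mk_iff_col] at h
  obtain ⟨u, h1, h2⟩ := h
  refine ⟨(QuotientGroup.mk g, u), ?_⟩
  apply Subtype.ext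
  apply Prod.ext
  · exact h1.symm
  · exact h2.symm

/-- the matrix `!![t, -1; 1, 0]`, with first column `(t, 1)` -/
def colRep (t : ℤ) : SL(2, ℤ) := ⟨!![t, -1; 1, 0], by simp [Matrix.det_fin_two]⟩

lemma colRep_zero_zero (t : ℤ) : colRep t 0 0 = t := rfl

lemma colRep_one_zero (t : ℤ) : colRep t 1 0 = 1 := rfl

lemma S_mul_zero_zero (g : SL(2, ℤ)) : (S * g : SL(2, ℤ)) 0 0 = -g 1 0 := by
  simp [coe_S, Matrix.mul_apply, Fin.sum_univ_two]

lemma S_mul_one_zero (g : SL(2, ℤ)) : (S * g : SL(2, ℤ)) 1 0 = g 0 0 := by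
  simp [coe_S, Matrix.mul_apply, Fin.sum_univ_two]

lemma T_mul_zero_zero (g : SL(2, ℤ)) : (T * g : SL(2, ℤ)) 0 0 = g 0 0 + g 1 0 := by
  simp [coe_T, Matrix.mul_apply, Fin.sum_univ_two]

lemma T_mul_one_zero (g : SL(2, ℤ)) : (T * g : SL(2, ℤ)) 1 0 = g 1 0 := by
  simp

lemma ST_mul_zero_zero (g : SL(2, ℤ)) : (S * T * g : SL(2, ℤ)) 0 0 = -g 1 0 := by
  rw [mul_assoc, S_mul_zero_zero, T_mul_one_zero]

lemma ST_mul_one_zero (g : SL(2, ℤ)) : (S * T * g : SL(2, ℤ)) 1 0 = g 0 0 + g 1 0 := by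
  rw [mul_assoc, S_mul_one_zero, T_mul_zero_zero]

/-- `S` fixes the coset of `g` iff `a² + c² = 0` mod `N` for the first column `(a, c)`. -/
lemma S_smul_mk_eq_iff (N : ℕ) (g : SL(2, ℤ)) :
    S • (QuotientGroup.mk g : SL(2, ℤ) ⧸ Gamma0 N) = QuotientGroup.mk g ↔
      (col N g).1.1 ^ 2 + (col N g).1.2 ^ 2 = 0 := by
  rw [MulAction.Quotient.smul_mk, smul_eq_mul, mk_eq_mk_iff, S_mul_zero_zero, S_mul_one_zero]
  simp only [col]
  push_cast
  constructor <;> intro h <;> linear_combination -h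

/-- `S * T` fixes the coset of `g` iff `a² + a c + c² = 0` mod `N`. -/
lemma ST_smul_mk_eq_iff (N : ℕ) (g : SL(2, ℤ)) :
    (S * T) • (QuotientGroup.mk g : SL(2, ℤ) ⧸ Gamma0 N) = QuotientGroup.mk g ↔
      (col N g).1.1 ^ 2 + (col N g).1.1 * (col N g).1.2 + (col N g).1.2 ^ 2 = 0 := by
  rw [MulAction.Quotient.smul_mk, smul_eq_mul, mk_eq_mk_iff, ST_mul_zero_zero, ST_mul_one_zero]
  simp only [col]
  push_cast
  constructor <;> intro h <;> linear_combination -h

/-- the common counting argument for fixed points -/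
lemma card_fixedBy_aux (N : ℕ) [NeZero N] (s : SL(2, ℤ)) (P : ZMod N → ZMod N → ZMod N)
    (hs : ∀ g : SL(2, ℤ), s • (QuotientGroup.mk g : SL(2, ℤ) ⧸ Gamma0 N) = QuotientGroup.mk g ↔
      P (col N g).1.1 (col N g).1.2 = 0)
    (hunit : ∀ a c : ZMod N, IsCoprime a c → P a c = 0 → ∃ w, c * w = 1)
    (hhom : ∀ a c w : ZMod N, P (a * w) (c * w) = P a c * w ^ 2) :
    Nat.card (MulAction.fixedBy (SL(2, ℤ) ⧸ Gamma0 N) s) = Nat.card {t : ZMod N // P t 1 = 0} := by
  have hcol : ∀ t : ZMod N, (col N (colRep (t.val : ℤ))).1 = (t, 1) := by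
    intro t
    simp [col, colRep_zero_zero, colRep_one_zero]
  let F : {t : ZMod N // P t 1 = 0} → MulAction.fixedBy (SL(2, ℤ) ⧸ Gamma0 N) s :=
    fun t => ⟨QuotientGroup.mk (colRep (t.1.val : ℤ)), by
      rw [MulAction.mem_fixedBy, hs, hcol]
      exact t.2⟩
  have hF : Function.Bijective F := by
    constructor
    · rintro ⟨t, ht⟩ ⟨t', ht'⟩ h
      have h1 : (QuotientGroup.mk (colRep (t.val : ℤ)) : SL(2, ℤ) ⧸ Gamma0 N) =
          QuotientGroup.mk (colRep (t'.val : ℤ)) := congrArg Subtype.val h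
      rw [mk_eq_mk_iff] at h1
      have e1 := congrArg Prod.fst (hcol t)
      have e2 := congrArg Prod.snd (hcol t)
      have e3 := congrArg Prod.fst (hcol t')
      have e4 := congrArg Prod.snd (hcol t')
      simp only [col] at e1 e2 e3 e4
      rw [e1, e2, e3, e4] at h1
      apply Subtype.ext
      show t = t'
      linear_combination h1
    · rintro ⟨x, hx⟩
      obtain ⟨g, rfl⟩ := QuotientGroup.mk_surjective x
      rw [MulAction.mem_fixedBy, hs] at hx
      obtain ⟨w, hw⟩ := hunit _ _ (col N g).2 hx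
      have ht : P ((col N g).1.1 * w) 1 = 0 := by
        rw [← hw, hhom, hx, zero_mul]
      refine ⟨⟨(col N g).1.1 * w, ht⟩, ?_⟩
      apply Subtype.ext
      show (QuotientGroup.mk (colRep _) : SL(2, ℤ) ⧸ Gamma0 N) = QuotientGroup.mk g
      rw [mk_eq_mk_iff]
      have e1 := congrArg Prod.fst (hcol ((col N g).1.1 * w))
      have e2 := congrArg Prod.snd (hcol ((col N g).1.1 * w))
      simp only [col] at e1 e2 hw ⊢
      rw [e1, e2]
      linear_combination ((g 0 0 : ℤ) : ZMod N) * hw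
  exact (Nat.card_congr (Equiv.ofBijective F hF)).symm

end Group

end G0C

open MatrixGroups CongruenceSubgroup

theorem card_quotient_Gamma0 (N : ℕ) [NeZero N] :
    Nat.card (SL(2, ℤ) ⧸ Gamma0 N) = ModularCurve.dedekindPsi N := by
  have h1 : Nat.card ((SL(2, ℤ) ⧸ Gamma0 N) × (ZMod N)ˣ) = Nat.card (G0C.PrimPair N) :=
    Nat.card_congr (Equiv.ofBijective (G0C.pairMap N)
      ⟨G0C.pairMap_injective N, G0C.pairMap_surjective N⟩)
  rw [Nat.card_prod, G0C.card_primPair N (NeZero.pos N), Nat.card_eq_fintype_card (α := (ZMod N)ˣ),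
    ZMod.card_units_eq_totient, mul_comm] at h1
  exact Nat.eq_of_mul_eq_mul_left (Nat.totient_pos.2 (NeZero.pos N)) h1

end Fermat.Agent.Lib
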