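import Mathlib

/-!
# Counting orbits of a cyclic group acting through a finite quotient (Burnside)

For `g : G` acting on a finite type `X` such that `g ^ n` acts trivially (`0 < n`):
`n * #(X / ⟨g⟩) = ∑ i < n, #Fix(g ^ i)`.
-/

set_option autoImplicit false

namespace Fermat.Agent.Lib

open MulAction

/-- Burnside's lemma for the cyclic group generated by an element of finite order. -/
theorem orderOf_mul_card_orbits_zpowers {G X : Type*} [Group G] [MulAction G X] [Finite X]
    (g : G) (hg : IsOfFinOrder g) :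
    orderOf g * Nat.card (orbitRel.Quotient (Subgroup.zpowers g) X)
      = ∑ i ∈ Finset.range (orderOf g), Nat.card (fixedBy X (g ^ i)) := by
  classical
  have : Fintype X := Fintype.ofFinite X
  have : Fintype (Subgroup.zpowers g) := Fintype.ofEquiv _ (finEquivZPowers hg)
  have hB := MulAction.sum_card_fixedBy_eq_card_orbits_mul_card_group (Subgroup.zpowers g) X
  simp only [Fintype.card_eq_nat_card, Nat.card_zpowers] at hB
  rw [mul_comm]
  rw [show Nat.card (orbitRel.Quotient (Subgroup.zpowers g) X)
      = Nat.card (Quotient (orbitRel (Subgroup.zpowers g) X)) from rfl, ← hB]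
  rw [← (finEquivZPowers hg).sum_comp, ← Fin.sum_univ_eq_sum_range]
  rfl

/-- A sum over `range (m * k)` of an `m`-periodic function. -/
theorem sum_range_mul_of_periodic (f : ℕ → ℕ) (m k : ℕ) (hf : ∀ j i, f (m * j + i) = f i) :
    ∑ i ∈ Finset.range (m * k), f i = k * ∑ i ∈ Finset.range m, f i := by
  induction k with
  | zero => simp
  | succ k ih =>
    rw [Nat.mul_succ, Finset.sum_range_add, ih]
    simp only [hf]
    ring

/-- **Burnside for a cyclic action through a finite quotient.**  If `g ^ n` acts trivially on the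
finite type `X` (`0 < n`), then `n` times the number of `⟨g⟩`-orbits is the sum of the numbers of
fixed points of `g ^ i`, `i < n`. -/
theorem mul_card_orbits_zpowers {G X : Type*} [Group G] [MulAction G X] [Finite X] (g : G)
    (n : ℕ) (hn : 0 < n) (h : ∀ x : X, g ^ n • x = x) :
    n * Nat.card (orbitRel.Quotient (Subgroup.zpowers g) X)
      = ∑ i ∈ Finset.range n, Nat.card (fixedBy X (g ^ i)) := by
  classical
  set σ : Equiv.Perm X := MulAction.toPermHom G X g with hσ
  have hzpow : ∀ (j : ℤ) (x : X), (σ ^ j) x = g ^ j • x := by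
    intro j x
    rw [hσ, ← map_zpow]
    rfl
  have hpow : ∀ (i : ℕ) (x : X), (σ ^ i) x = g ^ i • x := by
    intro i x
    rw [hσ, ← map_pow]
    rfl
  have hσn : σ ^ n = 1 := by
    ext x
    rw [hpow, h]
    rfl
  have hfin : IsOfFinOrder σ := isOfFinOrder_iff_pow_eq_one.mpr ⟨n, hn, hσn⟩
  obtain ⟨k, hk⟩ := orderOf_dvd_of_pow_eq_one hσn
  have h1 := orderOf_mul_card_orbits_zpowers (X := X) σ hfin
  have horb : orbitRel (Subgroup.zpowers g) X = orbitRel (Subgroup.zpowers σ) X := by
    ext x y
    simp only [orbitRel_apply, mem_orbit_iff]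
    constructor
    · rintro ⟨⟨_, j, rfl⟩, hj⟩
      refine ⟨⟨σ ^ j, j, rfl⟩, ?_⟩
      rw [← hj]
      exact hzpow j y
    · rintro ⟨⟨_, j, rfl⟩, hj⟩
      refine ⟨⟨g ^ j, j, rfl⟩, ?_⟩
      rw [← hj]
      exact (hzpow j y).symm
  have hfix : ∀ i : ℕ, Nat.card (fixedBy X (g ^ i)) = Nat.card (fixedBy X (σ ^ i)) := by
    intro i
    have : fixedBy X (g ^ i) = fixedBy X (σ ^ i) := by
      ext x
      simp only [mem_fixedBy, Equiv.Perm.smul_def, hpow]
    rw [this]
  have hper : ∀ j i, Nat.card (fixedBy X (σ ^ (orderOf σ * j + i))) = Nat.card (fixedBy X (σ ^ i)) := by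
    intro j i
    rw [pow_add, pow_mul, pow_orderOf_eq_one, one_pow, one_mul]
  have hquot : Nat.card (orbitRel.Quotient (Subgroup.zpowers g) X)
      = Nat.card (orbitRel.Quotient (Subgroup.zpowers σ) X) := by
    unfold orbitRel.Quotient
    rw [horb]
  rw [hquot]
  simp only [hfix]
  rw [hk, sum_range_mul_of_periodic _ _ _ hper, ← h1]
  ring

/-- If `g ^ 2` acts trivially: `2 * #orbits = #X + #Fix(g)`. -/
theorem two_mul_card_orbits_zpowers {G X : Type*} [Group G] [MulAction G X] [Finite X] (g : G)
    (h : ∀ x : X, g ^ 2 • x = x) :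
    2 * Nat.card (orbitRel.Quotient (Subgroup.zpowers g) X)
      = Nat.card X + Nat.card (fixedBy X g) := by
  rw [mul_card_orbits_zpowers g 2 (by norm_num) h, Finset.sum_range_succ, Finset.sum_range_one,
    pow_zero, pow_one]
  congr 1
  have : fixedBy X (1 : G) = Set.univ := by
    ext x
    simp
  rw [this, Nat.card_congr (Equiv.Set.univ X)]

/-- If `g ^ 3` acts trivially: `3 * #orbits = #X + 2 * #Fix(g)`. -/
theorem three_mul_card_orbits_zpowers {G X : Type*} [Group G] [MulAction G X] [Finite X] (g : G)
    (h : ∀ x : X, g ^ 3 • x = x) :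
    3 * Nat.card (orbitRel.Quotient (Subgroup.zpowers g) X)
      = Nat.card X + 2 * Nat.card (fixedBy X g) := by
  rw [mul_card_orbits_zpowers g 3 (by norm_num) h, Finset.sum_range_succ, Finset.sum_range_succ,
    Finset.sum_range_one, pow_zero, pow_one]
  have h1 : fixedBy X (1 : G) = Set.univ := by
    ext x
    simp
  have h2 : fixedBy X (g ^ 2) = fixedBy X g := by
    ext x
    simp only [mem_fixedBy]
    constructor
    · intro hx
      have := h x
      rw [pow_succ, mul_smul] at this
      have h3 : g ^ 2 • g • x = g ^ 2 • x := by rw [this, hx]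
      exact smul_left_cancel _ h3
    · intro hx
      rw [pow_two, mul_smul, hx, hx]
  rw [h1, h2, Nat.card_congr (Equiv.Set.univ X)]
  ring

end Fermat.Agent.Lib
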