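import Mathlib
import Fermat.Agent.Lib.OrbitCount

/-!
# Orbit counts of `S` and `S * T` on `SL(2, ℤ) ⧸ Γ₀(N)` in terms of fixed points

`-1 ∈ Γ₀(N)` acts trivially on the left cosets, `S ^ 2 = (S * T) ^ 3 = -1`, hence by Burnside
`2 * #(X/⟨S⟩) = #X + #Fix(S)` and `3 * #(X/⟨S T⟩) = #X + 2 * #Fix(S T)`.
-/

set_option autoImplicit false

open CongruenceSubgroup ModularGroup MatrixGroups MulAction

namespace Fermat.Agent.Lib.Gamma0Orbits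

theorem S_sq_eq_neg_one : (S : SL(2, ℤ)) ^ 2 = -1 := by decide

theorem ST_cube_eq_neg_one : (S * T : SL(2, ℤ)) ^ 3 = -1 := by decide

/-- `-1` acts trivially on the left cosets of `Γ₀(N)`. -/
theorem neg_one_smul (N : ℕ) (x : SL(2, ℤ) ⧸ Gamma0 N) : (-1 : SL(2, ℤ)) • x = x := by
  induction x using QuotientGroup.induction_on with
  | H g =>
    rw [MulAction.Quotient.smul_mk, QuotientGroup.eq, Gamma0_mem]
    simp

theorem S_sq_smul (N : ℕ) (x : SL(2, ℤ) ⧸ Gamma0 N) : (S : SL(2, ℤ)) ^ 2 • x = x := by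
  rw [S_sq_eq_neg_one, neg_one_smul]

theorem ST_cube_smul (N : ℕ) (x : SL(2, ℤ) ⧸ Gamma0 N) : (S * T : SL(2, ℤ)) ^ 3 • x = x := by
  rw [ST_cube_eq_neg_one, neg_one_smul]

/-- `2 * #(X/⟨S⟩) = #X + #Fix(S)` on `X = SL(2, ℤ) ⧸ Γ₀(N)`. -/
theorem two_mul_card_orbits_S (N : ℕ) [NeZero N] :
    2 * Nat.card (orbitRel.Quotient (Subgroup.zpowers S) (SL(2, ℤ) ⧸ Gamma0 N))
      = Nat.card (SL(2, ℤ) ⧸ Gamma0 N) + Nat.card (fixedBy (SL(2, ℤ) ⧸ Gamma0 N) S) :=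
  two_mul_card_orbits_zpowers S (S_sq_smul N)

/-- `3 * #(X/⟨S T⟩) = #X + 2 * #Fix(S T)` on `X = SL(2, ℤ) ⧸ Γ₀(N)`. -/
theorem three_mul_card_orbits_ST (N : ℕ) [NeZero N] :
    3 * Nat.card (orbitRel.Quotient (Subgroup.zpowers (S * T)) (SL(2, ℤ) ⧸ Gamma0 N))
      = Nat.card (SL(2, ℤ) ⧸ Gamma0 N) + 2 * Nat.card (fixedBy (SL(2, ℤ) ⧸ Gamma0 N) (S * T)) :=
  three_mul_card_orbits_zpowers (S * T) (ST_cube_smul N)

end Fermat.Agent.Lib.Gamma0Orbits
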